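/-
S45lib / CountK / Weights  (helper5, Project J, block (N))

The combinatorics of the Katz–Mazur fibre of `X₀(M q^k)` in characteristic `q`: `k + 1` components
`Z_i` (`i = 0, …, k`; `(a, b) = (k - i, i)` or `(i, k - i)`, everything here is invariant under
`i ↦ k - i`), all through every supersingular point, with

* multiplicities `e_i = eK q k i = φ(q^{min(i, k-i)})`,
* local intersection numbers `w_{ij} = wK q k i j = q^{min(dᵢ⁺ + dⱼ⁻, dᵢ⁻ + dⱼ⁺)}`, `d_i = k - 2i`
  (`= q^{min(|dᵢ|, |dⱼ|)}` if `dᵢ, dⱼ` have the same strict sign, `1` otherwise).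

Results (`q` prime, `k ≥ 1`):
* `row_total` : `Σ_j e_j w_{ij} = (q + 1) q^{k - 1 - min(i, k-i)}` (with `w_{ii} = q^{|dᵢ|}`);
* `rowK_outer`, `rowK_inner` : `Σ_{j ≠ i} e_j w_{ij} = q^{k-1}` if `min(i,k-i) = 0`,
  `= 2 q^{k - 1 - min(i, k-i)}` otherwise;
* `sK_identity` : `(q - 1) Σ_{i ≠ j} e_j w_{ij} + 2 Σ_i e_i = 2 q^{k-1} (q + 1)`.
-/
import Mathlib

set_option autoImplicit false

namespace Fermat.Agent.S45lib.CountK

open Finset

/-- the multiplicity `e_i = φ(q^{min(i, k-i)})` of the `i`-th component of the fibre of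
`X₀(M q^k)` in characteristic `q` -/
def eK (q k i : ℕ) : ℕ := Nat.totient (q ^ min i (k - i))

/-- the local intersection number at a supersingular point of the components `i` and `j`:
`q^{min(dᵢ⁺ + dⱼ⁻, dᵢ⁻ + dⱼ⁺)}` with `d = k - 2i` -/
def wK (q k i j : ℕ) : ℕ := q ^ min ((k - 2 * i) + (2 * j - k)) ((2 * i - k) + (k - 2 * j))

/-- `c_k = Σ_i e_i` (the number of cusps of `X₀(q^k)`) -/
def cK (q k : ℕ) : ℕ := ∑ i ∈ range (k + 1), eK q k i

/-- the `i`-th row sum `Σ_{j ≠ i} e_j w_{ij}` -/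
def rowK (q k i : ℕ) : ℕ := ∑ j ∈ (range (k + 1)).erase i, eK q k j * wK q k i j

/-- `S_k = Σ_{i ≠ j} e_j w_{ij}` -/
def sK (q k : ℕ) : ℕ := ∑ i ∈ range (k + 1), rowK q k i

theorem eK_reflect {q k j : ℕ} (hj : j ≤ k) : eK q k (k - j) = eK q k j := by
  unfold eK
  have h : min (k - j) (k - (k - j)) = min j (k - j) := by omega
  rw [h]

theorem wK_reflect {q k i j : ℕ} (hi : i ≤ k) (hj : j ≤ k) :
    wK q k (k - i) (k - j) = wK q k i j := by
  unfold wK
  have h : min ((k - 2 * (k - i)) + (2 * (k - j) - k)) ((2 * (k - i) - k) + (k - 2 * (k - j))) =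
      min ((k - 2 * i) + (2 * j - k)) ((2 * i - k) + (k - 2 * j)) := by omega
  rw [h]

theorem wK_symm (q k i j : ℕ) : wK q k i j = wK q k j i := by
  unfold wK
  have h : min ((k - 2 * i) + (2 * j - k)) ((2 * i - k) + (k - 2 * j)) =
      min ((k - 2 * j) + (2 * i - k)) ((2 * j - k) + (k - 2 * i)) := by omega
  rw [h]

theorem wK_pos {q : ℕ} (hq : 0 < q) (k i j : ℕ) : 0 < wK q k i j := pow_pos hq _

theorem eK_pos {q : ℕ} (hq : 0 < q) (k i : ℕ) : 0 < eK q k i :=
  Nat.totient_pos.2 (pow_pos hq _)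

theorem wK_self (q k i : ℕ) : wK q k i i = q ^ ((k - 2 * i) + (2 * i - k)) := by
  unfold wK
  have h : min ((k - 2 * i) + (2 * i - k)) ((2 * i - k) + (k - 2 * i)) =
      (k - 2 * i) + (2 * i - k) := by omega
  rw [h]

/-- the weights as the closed form `q^{min(|dᵢ|,|dⱼ|)}` on the same side -/
theorem wK_of_le_le {q k i j : ℕ} (hi : 2 * i ≤ k) (hj : 2 * j ≤ k) :
    wK q k i j = q ^ min (k - 2 * i) (k - 2 * j) := by
  unfold wK
  have h : min ((k - 2 * i) + (2 * j - k)) ((2 * i - k) + (k - 2 * j)) =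
      min (k - 2 * i) (k - 2 * j) := by omega
  rw [h]

theorem wK_of_ge_ge {q k i j : ℕ} (hi : k ≤ 2 * i) (hj : k ≤ 2 * j) :
    wK q k i j = q ^ min (2 * i - k) (2 * j - k) := by
  unfold wK
  have h : min ((k - 2 * i) + (2 * j - k)) ((2 * i - k) + (k - 2 * j)) =
      min (2 * i - k) (2 * j - k) := by omega
  rw [h]

/-- components on opposite sides (or the middle one) meet transversally -/
theorem wK_of_le_ge {q k i j : ℕ} (hi : 2 * i ≤ k) (hj : k ≤ 2 * j) : wK q k i j = 1 := by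
  unfold wK
  have h : min ((k - 2 * i) + (2 * j - k)) ((2 * i - k) + (k - 2 * j)) = 0 := by omega
  rw [h, pow_zero]

theorem wK_of_ge_le {q k i j : ℕ} (hi : k ≤ 2 * i) (hj : 2 * j ≤ k) : wK q k i j = 1 := by
  rw [wK_symm, wK_of_le_ge hj hi]

/-! ### the row sums -/

theorem sum_totient_pow {q : ℕ} (hq : q.Prime) (n : ℕ) :
    ∑ j ∈ range (n + 1), Nat.totient (q ^ j) = q ^ n := by
  rw [← Nat.sum_divisors_prime_pow (f := Nat.totient) hq]
  exact Nat.sum_totient _

theorem sumA {q k i : ℕ} (hq : q.Prime) (hi : 2 * i ≤ k) :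
    ∑ j ∈ range (i + 1), eK q k j * wK q k i j = q ^ (k - i) := by
  have h : ∀ j ∈ range (i + 1),
      eK q k j * wK q k i j = Nat.totient (q ^ j) * q ^ (k - 2 * i) := by
    intro j hj
    rw [mem_range] at hj
    have h1 : min j (k - j) = j := by omega
    have h2 : min ((k - 2 * i) + (2 * j - k)) ((2 * i - k) + (k - 2 * j)) = k - 2 * i := by omega
    unfold eK wK; rw [h1, h2]
  rw [Finset.sum_congr rfl h, ← Finset.sum_mul, sum_totient_pow hq, ← pow_add]
  congr 1; omega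

theorem sumB {q k i : ℕ} (hq : q.Prime) (n : ℕ) (hin : i ≤ n) (hn : 2 * n ≤ k) :
    ∑ j ∈ Ico (i + 1) (n + 1), eK q k j * wK q k i j + q ^ (k - 1 - n) = q ^ (k - 1 - i) := by
  induction n, hin using Nat.le_induction with
  | base => simp
  | succ n hin ih =>
    have ih' := ih (by omega)
    rw [Finset.sum_Ico_succ_top (by omega)]
    have h1 : min (n + 1) (k - (n + 1)) = n + 1 := by omega
    have h2 : min ((k - 2 * i) + (2 * (n + 1) - k)) ((2 * i - k) + (k - 2 * (n + 1))) =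
        k - 2 * (n + 1) := by omega
    have ht : eK q k (n + 1) * wK q k i (n + 1) = q ^ n * (q - 1) * q ^ (k - 2 * (n + 1)) := by
      unfold eK wK; rw [h1, h2, Nat.totient_prime_pow_succ hq]
    rw [ht, ← ih']
    have e1 : q ^ (k - 1 - n) = q ^ n * q ^ (k - 2 * (n + 1)) * q := by
      rw [← pow_add, ← pow_succ]; congr 1; omega
    have e2 : q ^ (k - 1 - (n + 1)) = q ^ n * q ^ (k - 2 * (n + 1)) := by
      rw [← pow_add]; congr 1; omega
    obtain ⟨r, rfl⟩ : ∃ r, q = r + 1 := ⟨q - 1, by have := hq.pos; omega⟩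
    rw [e1, e2, Nat.add_sub_cancel]
    ring

theorem sumC {q k i : ℕ} (hq : q.Prime) (n : ℕ) (hi : 2 * i ≤ k) (hn : k ≤ 2 * n + 1)
    (hnk : n < k) :
    ∑ j ∈ Ico (n + 1) (k + 1), eK q k j * wK q k i j = q ^ (k - n - 1) := by
  have h : ∀ j ∈ Ico (n + 1) (k + 1),
      eK q k j * wK q k i j = Nat.totient (q ^ (k - j)) := by
    intro j hj
    rw [mem_Ico] at hj
    have h1 : min j (k - j) = k - j := by omega
    have h2 : min ((k - 2 * i) + (2 * j - k)) ((2 * i - k) + (k - 2 * j)) = 0 := by omega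
    unfold eK wK; rw [h1, h2, pow_zero, mul_one]
  rw [Finset.sum_congr rfl h,
    Finset.sum_Ico_reflect (fun t => Nat.totient (q ^ t)) (n + 1) (le_refl (k + 1))]
  have e : k + 1 - (n + 1) = (k - n - 1) + 1 := by omega
  rw [Nat.sub_self, e, Nat.Ico_zero_eq_range, sum_totient_pow hq]

theorem row_total_of_le {q k i : ℕ} (hq : q.Prime) (hk : 1 ≤ k) (hi : 2 * i ≤ k) :
    ∑ j ∈ range (k + 1), eK q k j * wK q k i j = (q + 1) * q ^ (k - 1 - i) := by
  obtain ⟨n, hn1, hn2⟩ : ∃ n, 2 * n ≤ k ∧ k ≤ 2 * n + 1 := ⟨k / 2, by omega, by omega⟩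
  have hin : i ≤ n := by omega
  have hnk : n < k := by omega
  rw [← Finset.sum_range_add_sum_Ico _ (show i + 1 ≤ k + 1 by omega),
    ← Finset.sum_Ico_consecutive _ (show i + 1 ≤ n + 1 by omega) (show n + 1 ≤ k + 1 by omega),
    sumA hq hi, sumC hq n hi hn2 hnk]
  have hB := sumB (i := i) hq n hin hn1
  have e1 : k - n - 1 = k - 1 - n := by omega
  have e2 : q ^ (k - i) = q * q ^ (k - 1 - i) := by rw [← pow_succ']; congr 1; omega
  rw [e1, hB, e2]; ring

/-- **the row sums**: `Σ_j e_j w_{ij} = (q + 1) q^{k - 1 - min(i, k-i)}` (diagonal term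
`w_{ii} = q^{|dᵢ|}` included). -/
theorem row_total {q k i : ℕ} (hq : q.Prime) (hk : 1 ≤ k) (hi : i ≤ k) :
    ∑ j ∈ range (k + 1), eK q k j * wK q k i j = (q + 1) * q ^ (k - 1 - min i (k - i)) := by
  rcases le_total (2 * i) k with h | h
  · rw [row_total_of_le hq hk h]
    have : k - 1 - i = k - 1 - min i (k - i) := by omega
    rw [this]
  · have h' : 2 * (k - i) ≤ k := by omega
    rw [← Finset.sum_range_reflect]
    have hrow : ∀ j ∈ range (k + 1),
        eK q k (k + 1 - 1 - j) * wK q k i (k + 1 - 1 - j) = eK q k j * wK q k (k - i) j := by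
      intro j hj
      rw [mem_range] at hj
      have hjk : j ≤ k := by omega
      rw [Nat.add_sub_cancel, eK_reflect hjk]
      congr 1
      have hki : k - i ≤ k := Nat.sub_le _ _
      have := wK_reflect (q := q) hki hjk
      rwa [Nat.sub_sub_self hi] at this
    rw [Finset.sum_congr rfl hrow, row_total_of_le hq hk h']
    have : k - 1 - (k - i) = k - 1 - min i (k - i) := by omega
    rw [this]

theorem rowK_add {q k i : ℕ} (hi : i ≤ k) :
    eK q k i * wK q k i i + rowK q k i = ∑ j ∈ range (k + 1), eK q k j * wK q k i j := by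
  unfold rowK
  exact Finset.add_sum_erase (range (k + 1)) (fun j => eK q k j * wK q k i j)
    (mem_range.2 (Nat.lt_succ_of_le hi))

/-- the outer components (`i = 0` or `i = k`): `Σ_{j ≠ i} e_j w_{ij} = q^{k-1}` -/
theorem rowK_outer {q k i : ℕ} (hq : q.Prime) (hk : 1 ≤ k) (hi : i ≤ k)
    (hm : min i (k - i) = 0) : rowK q k i = q ^ (k - 1) := by
  have h := rowK_add (q := q) hi
  rw [row_total hq hk hi, hm, wK_self] at h
  have he : eK q k i = 1 := by unfold eK; rw [hm, pow_zero, Nat.totient_one]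
  have hw : (k - 2 * i) + (2 * i - k) = (k - 1) + 1 := by omega
  rw [he, hw, pow_succ, one_mul, Nat.sub_zero] at h
  have : q ^ (k - 1) * q + rowK q k i = q ^ (k - 1) * q + q ^ (k - 1) := by rw [h]; ring
  exact Nat.add_left_cancel this

/-- the inner components: `Σ_{j ≠ i} e_j w_{ij} = 2 q^{k - 1 - min(i, k-i)}` -/
theorem rowK_inner {q k i : ℕ} (hq : q.Prime) (hi : i ≤ k) (hm : 1 ≤ min i (k - i)) :
    rowK q k i = 2 * q ^ (k - 1 - min i (k - i)) := by
  have hk : 1 ≤ k := by omega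
  have h := rowK_add (q := q) hi
  rw [row_total hq hk hi, wK_self] at h
  obtain ⟨m, hm'⟩ : ∃ m, min i (k - i) = m + 1 := ⟨min i (k - i) - 1, by omega⟩
  have he : eK q k i = q ^ m * (q - 1) := by
    unfold eK; rw [hm', Nat.totient_prime_pow_succ hq]
  have hw : q ^ m * q ^ ((k - 2 * i) + (2 * i - k)) = q ^ (k - 1 - min i (k - i)) := by
    rw [← pow_add]; congr 1; omega
  obtain ⟨r, rfl⟩ : ∃ r, q = r + 1 := ⟨q - 1, by have := hq.pos; omega⟩
  rw [he, Nat.add_sub_cancel] at h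
  have h2 : (r + 1) ^ m * r * (r + 1) ^ ((k - 2 * i) + (2 * i - k)) =
      r * (r + 1) ^ (k - 1 - min i (k - i)) := by rw [← hw]; ring
  rw [h2] at h
  have : r * (r + 1) ^ (k - 1 - min i (k - i)) + rowK (r + 1) k i =
      r * (r + 1) ^ (k - 1 - min i (k - i)) + 2 * (r + 1) ^ (k - 1 - min i (k - i)) := by
    rw [h]; ring
  exact Nat.add_left_cancel this

/-! ### the total -/

theorem geom_reflect (q n : ℕ) : ∑ i ∈ range n, q ^ (n - 1 - i) = ∑ i ∈ range n, q ^ i :=
  Finset.sum_range_reflect (fun i => q ^ i) n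

/-- **`(q - 1) Σ_{i ≠ j} e_j w_{ij} + 2 Σ_i e_i = 2 q^{k-1} (q + 1)`.** -/
theorem sK_identity {q k : ℕ} (hq : q.Prime) (hk : 1 ≤ k) :
    (q - 1) * sK q k + 2 * cK q k = 2 * (q ^ (k - 1) * (q + 1)) := by
  obtain ⟨k', rfl⟩ : ∃ k', k = k' + 1 := ⟨k - 1, by omega⟩
  unfold sK cK
  rw [Finset.mul_sum, Finset.mul_sum, ← Finset.sum_add_distrib, Nat.add_sub_cancel,
    Finset.sum_range_succ, Finset.sum_range_succ']
  -- the two outer rows
  have h0 : (q - 1) * rowK q (k' + 1) 0 + 2 * eK q (k' + 1) 0 = (q - 1) * q ^ k' + 2 := by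
    rw [rowK_outer hq (by omega) (by omega) (by omega)]
    have : eK q (k' + 1) 0 = 1 := by
      unfold eK; rw [Nat.zero_min, pow_zero, Nat.totient_one]
    rw [this, Nat.add_sub_cancel]
  have h1 : (q - 1) * rowK q (k' + 1) (k' + 1) + 2 * eK q (k' + 1) (k' + 1) =
      (q - 1) * q ^ k' + 2 := by
    rw [rowK_outer hq (by omega) (le_refl _) (by omega)]
    have : eK q (k' + 1) (k' + 1) = 1 := by
      unfold eK
      have : min (k' + 1) (k' + 1 - (k' + 1)) = 0 := by omega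
      rw [this, pow_zero, Nat.totient_one]
    rw [this, Nat.add_sub_cancel]
  -- the inner rows
  have hin : ∀ i ∈ range k', (q - 1) * rowK q (k' + 1) (i + 1) + 2 * eK q (k' + 1) (i + 1) =
      2 * ((q - 1) * q ^ (k' - 1 - i)) + 2 * ((q - 1) * q ^ i) := by
    intro i hi
    rw [mem_range] at hi
    have hm : 1 ≤ min (i + 1) (k' + 1 - (i + 1)) := by omega
    rw [rowK_inner hq (by omega) hm]
    obtain ⟨m, hm'⟩ : ∃ m, min (i + 1) (k' + 1 - (i + 1)) = m + 1 :=
      ⟨min (i + 1) (k' + 1 - (i + 1)) - 1, by omega⟩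
    have he : eK q (k' + 1) (i + 1) = q ^ m * (q - 1) := by
      unfold eK; rw [hm', Nat.totient_prime_pow_succ hq]
    rw [he, hm']
    rcases le_total (i + 1) (k' + 1 - (i + 1)) with hc | hc
    · have e1 : k' + 1 - 1 - (m + 1) = k' - 1 - i := by omega
      have e2 : m = i := by omega
      rw [e1, e2]; ring
    · have e1 : k' + 1 - 1 - (m + 1) = i := by omega
      have e2 : m = k' - 1 - i := by omega
      rw [e1, e2]; ring
  rw [h0, h1, Finset.sum_congr rfl hin, Finset.sum_add_distrib, ← Finset.mul_sum,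
    ← Finset.mul_sum, ← Finset.mul_sum, ← Finset.mul_sum, geom_reflect]
  obtain ⟨r, rfl⟩ : ∃ r, q = r + 1 := ⟨q - 1, by have := hq.pos; omega⟩
  rw [Nat.add_sub_cancel]
  have hG := geom_sum_mul_add r k'
  set G := ∑ i ∈ range k', (r + 1) ^ i with hGdef
  rw [← hG]
  ring

/-! ### the fundamental identity `Σ e f = ψ(q^k)` -/

theorem wK_top (q k j : ℕ) (hj : j ≤ k) : wK q k k j = q ^ (2 * j - k) := by
  unfold wK
  have h : min ((k - 2 * k) + (2 * j - k)) ((2 * k - k) + (k - 2 * j)) = 2 * j - k := by omega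
  rw [h]

/-- **`Σ_i e_i f_i = q^{k-1} (q + 1) = ψ(q^k)`** with the residue degrees `f_i = q^{(2i - k)⁺}`
(`i = b` the number of `V`-steps, `f = q^{(b - a)⁺}`). -/
theorem sum_eK_mul_f {q k : ℕ} (hq : q.Prime) (hk : 1 ≤ k) :
    ∑ j ∈ range (k + 1), eK q k j * q ^ (2 * j - k) = (q + 1) * q ^ (k - 1) := by
  have h := row_total (q := q) (k := k) (i := k) hq hk (le_refl k)
  have hm : k - 1 - min k (k - k) = k - 1 := by omega
  rw [hm] at h
  rw [← h]
  refine Finset.sum_congr rfl fun j hj => ?_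
  rw [mem_range] at hj
  rw [wK_top q k j (by omega)]

/-- the mirror identity with `f_i = q^{(k - 2i)⁺}` -/
theorem sum_eK_mul_f' {q k : ℕ} (hq : q.Prime) (hk : 1 ≤ k) :
    ∑ j ∈ range (k + 1), eK q k j * q ^ (k - 2 * j) = (q + 1) * q ^ (k - 1) := by
  have h := row_total (q := q) (k := k) (i := 0) hq hk (Nat.zero_le k)
  have hm : k - 1 - min 0 (k - 0) = k - 1 := by omega
  rw [hm] at h
  rw [← h]
  refine Finset.sum_congr rfl fun j hj => ?_
  rw [mem_range] at hj
  congr 1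
  unfold wK
  have h : min ((k - 2 * 0) + (2 * j - k)) ((2 * 0 - k) + (k - 2 * j)) = k - 2 * j := by omega
  rw [h]

theorem sum_fin_eK_mul_f {q k : ℕ} (hq : q.Prime) (hk : 1 ≤ k) :
    ∑ j : Fin (k + 1), eK q k j * q ^ (2 * (j : ℕ) - k) = (q + 1) * q ^ (k - 1) := by
  rw [Fin.sum_univ_eq_sum_range (fun j => eK q k j * q ^ (2 * j - k)) (k + 1)]
  exact sum_eK_mul_f hq hk

end Fermat.Agent.S45lib.CountK
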