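/-
S45lib / CountK / Mod  (helper5, Project J, block (N))

**COUNT at the auxiliary levels `M q^k`, all `k ≥ 1`, in the shape of `MThick.MCtx.count`.**

`q` prime, `q ∤ M`, `Fin.IsAuxLevel M q` (`36 ∣ M` for `q ≥ 5`, `9 ∣ M` for `q = 2`, `4 ∣ M` for
`q = 3`), `A | q` a valuation subring of `ℚ̄`, `g` the genus of `X₀(M q^k)` (characteristic `0`),
`gM` the genus of `X₀(M)` in characteristic `q`, `nS = Unit.modS nodeD1` the number of supersingular
points (`S36lib.Inst.nS`).  With `ι = Fin (k + 1)`, `e i = eK q k i = φ(q^{min(i,k-i)})`,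
`w i j = wK q k i j` (`CountK/Weights`):

  `2 g - 2 ≤ 2 Σ_i e_i (gM - 1) + nS Σ_i Σ_{j ≠ i} e_j w_{ij}`

(an equality for `q = 2, 3`, and whenever `nS` is the exact number of supersingular points).

* `level_count_of_isAuxLevel` : the level-`q` count `g(M q) + 1 ≤ 2 gM + nS` at the auxiliary levels;
* `count_pow_of_isAuxLevel`   : the statement above;
* `count_pow_of_isAuxLevel'`  : the same with `c_k (gM - 1)` and `S_k` (`cK`, `sK`).
-/
import Mathlib
import Fermat.Agent.S45lib.CountK.Genus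
import Fermat.Agent.S36lib.J.Top

set_option autoImplicit false
set_option linter.unusedSectionVars false
set_option linter.style.haveILetI false

noncomputable section

namespace Fermat.Agent.S45lib.CountK

open AlgebraicCurve ModularCurve
open Fermat.Agent.S18lib Fermat.Agent.ProgramR Fermat.Agent.LSb Fermat.Agent.S28lib
open Fermat.Agent.S36lib Fermat.Agent.S36lib.Inst

local notation "Qb" => AlgebraicClosure ℚ

variable {M q : ℕ} [NeZero M] [NeZero q] [hq : Fact q.Prime]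
variable {A : ValuationSubring (AlgebraicClosure ℚ)}

/-- at an auxiliary level, the genus of `X₀(M)` in characteristic `q` is the genus in
characteristic `0`, and `M` has no elliptic points -/
theorem aux_genus_and_nu (hqM : ¬ q ∣ M) (hA : A.LiesOverPrime q) (haux : Fin.IsAuxLevel M q)
    {gM : ℕ} (hFk : IsCurveOfGenus (IsLocalRing.ResidueField A) (FRes A M) gM) :
    IsCurveOfGenus Qb (FBar M) gM ∧ nuTwo M = 0 ∧ nuThree M = 0 := by
  rcases Fin.prime_cases hq.out with h2 | h3 | h5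
  · subst h2
    have h9 := Fin.nine_dvd_of_isAuxLevel_two haux
    obtain ⟨g0, hF0, hFk'⟩ := Mod23.exists_genus_nine M A rfl hqM hA h9
    obtain rfl : gM = g0 := RRgen.Canonical.genus_unique hFk hFk'
    exact ⟨hF0, Count.nuTwo_eq_zero_of_nine_dvd h9, Count.nuThree_eq_zero_of_nine_dvd h9⟩
  · subst h3
    have h4 := Fin.four_dvd_of_isAuxLevel_three haux
    obtain ⟨g0, hF0, hFk'⟩ := Mod23.exists_genus_four M A rfl hqM hA h4
    obtain rfl : gM = g0 := RRgen.Canonical.genus_unique hFk hFk'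
    exact ⟨hF0, Count.nuTwo_eq_zero_of_four_dvd h4, Count.nuThree_eq_zero_of_four_dvd h4⟩
  · obtain ⟨g0, hF0, hFk'⟩ := G.exists_genus_of_five_le M A hqM hA
      (S37lib.B3.reductionInputsModL M A hqM hA) h5
    obtain rfl : gM = g0 := RRgen.Canonical.genus_unique hFk hFk'
    exact ⟨hF0, Fin.nuTwo_eq_zero_of_isAuxLevel h5 haux, Fin.nuThree_eq_zero_of_isAuxLevel h5 haux⟩

/-- **the level-`q` count at the auxiliary levels**: `g(M q) + 1 ≤ 2 gM + nS` -/
theorem level_count_of_isAuxLevel (hqM : ¬ q ∣ M) (hA : A.LiesOverPrime q)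
    (haux : Fin.IsAuxLevel M q) [NeZero (M * q)] {g1 gM : ℕ}
    (hF1 : IsCurveOfGenus Qb (FBar (M * q)) g1)
    (hFk : IsCurveOfGenus (IsLocalRing.ResidueField A) (FRes A M) gM) :
    g1 + 1 ≤ 2 * gM + nS M q A hqM hA := by
  have h1 := isGaussOne_nodeD1 M q A hqM hA
  unfold nS
  rcases Fin.prime_cases hq.out with h2 | h3 | h5
  · subst h2
    have hc := Count23.count_two_eq (Fin.nine_dvd_of_isAuxLevel_two haux) hqM hA h1 hF1 hFk
    omega
  · subst h3
    have hc := Count23.count_three_eq (Fin.four_dvd_of_isAuxLevel_three haux) hqM hA h1 hF1 hFk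
    omega
  · have hc := Unit.mod_count_five_le h5 hqM hA h1 hF1 hFk
    omega

/-- **COUNT at the auxiliary level `M q^k`** with `c_k`, `S_k` -/
theorem count_pow_of_isAuxLevel' (hqM : ¬ q ∣ M) (hA : A.LiesOverPrime q)
    (haux : Fin.IsAuxLevel M q) {k : ℕ} (hk : 1 ≤ k) [NeZero (M * q ^ k)] {g gM : ℕ}
    (hF : IsCurveOfGenus Qb (FBar (M * q ^ k)) g)
    (hFk : IsCurveOfGenus (IsLocalRing.ResidueField A) (FRes A M) gM) :
    2 * (g : ℤ) - 2 ≤ 2 * ((cK q k : ℤ) * ((gM : ℤ) - 1)) +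
      (nS M q A hqM hA : ℤ) * (sK q k : ℤ) := by
  haveI : NeZero (M * q) := ⟨Nat.mul_ne_zero (NeZero.ne M) (NeZero.ne q)⟩
  obtain ⟨hF0, h2, h3⟩ := aux_genus_and_nu hqM hA haux hFk
  obtain ⟨g1, hF1, -⟩ := Gin0.exists_isCurveOfGenus_FBar (M * q)
  exact count_pow_numerics hq.out hqM h2 h3 hk (Count.genus_FBar_eq_genusFormula _ hF)
    (Count.genus_FBar_eq_genusFormula _ hF1) (Count.genus_FBar_eq_genusFormula _ hF0)
    (level_count_of_isAuxLevel hqM hA haux hF1 hFk)

/-- **COUNT at the auxiliary level `M q^k` in the shape of `MThick.MCtx.count`.** -/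
theorem count_pow_of_isAuxLevel (hqM : ¬ q ∣ M) (hA : A.LiesOverPrime q)
    (haux : Fin.IsAuxLevel M q) {k : ℕ} (hk : 1 ≤ k) [NeZero (M * q ^ k)] {g gM : ℕ}
    (hF : IsCurveOfGenus Qb (FBar (M * q ^ k)) g)
    (hFk : IsCurveOfGenus (IsLocalRing.ResidueField A) (FRes A M) gM) :
    2 * (g : ℤ) - 2 ≤ 2 * ∑ i : Fin (k + 1), (eK q k i : ℤ) * ((gM : ℤ) - 1) +
      (nS M q A hqM hA : ℤ) * ∑ i : Fin (k + 1), ∑ j : Fin (k + 1),
        if i = j then 0 else (eK q k j : ℤ) * (wK q k i j : ℤ) := by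
  rw [sum_fin_eK, sum_fin_sK]
  exact count_pow_of_isAuxLevel' hqM hA haux hk hF hFk

/-- **COUNT at an auxiliary level `N = M q^k`** (any spelling of the level, e.g. `Tower.lev M q k`),
in the shape of `MThick.MCtx.count`. -/
theorem count_pow_of_isAuxLevel_of_eq {N : ℕ} [NeZero N] (hqM : ¬ q ∣ M)
    (hA : A.LiesOverPrime q) (haux : Fin.IsAuxLevel M q) {k : ℕ} (hk : 1 ≤ k)
    (hN : N = M * q ^ k) {g gM : ℕ} (hF : IsCurveOfGenus Qb (FBar N) g)
    (hFk : IsCurveOfGenus (IsLocalRing.ResidueField A) (FRes A M) gM) :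
    2 * (g : ℤ) - 2 ≤ 2 * ∑ i : Fin (k + 1), (eK q k i : ℤ) * ((gM : ℤ) - 1) +
      (nS M q A hqM hA : ℤ) * ∑ i : Fin (k + 1), ∑ j : Fin (k + 1),
        if i = j then 0 else (eK q k j : ℤ) * (wK q k i j : ℤ) := by
  subst hN
  exact count_pow_of_isAuxLevel hqM hA haux hk hF hFk

end Fermat.Agent.S45lib.CountK
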