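/-
S45lib / CountK / Cusp  (helper5, Project J, block (N))

Pure arithmetic at the level `M q^k`, `q` prime, `q ∤ M`:

* `cuspCount_mul_of_coprime` : the cusp count `Σ_{d ∣ N} φ(gcd(d, N/d))` is multiplicative;
* `cuspCount_prime_pow`      : `cuspCount (q^k) = Σ_{i ≤ k} φ(q^{min(i, k-i)})`;
* `cuspCount_mul_prime_pow`  : `cuspCount (M q^k) = cuspCount (q^k) · cuspCount M`;
* `dedekindPsi_mul_prime_pow`: `ψ(M q^{k+1}) = q^k (q+1) ψ(M)`.
-/
import Mathlib
import Fermat.Prelude.Def_ModularCurve_GenusNumerics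
import Fermat.Agent.ProgramR.Counting.Psi

set_option autoImplicit false

noncomputable section

namespace Fermat.Agent.S45lib.CountK

open ModularCurve Finset

/-- the cusp count is multiplicative along coprime levels -/
theorem cuspCount_mul_of_coprime {m n : ℕ} (hm : m ≠ 0) (hn : n ≠ 0) (h : m.Coprime n) :
    cuspCount (m * n) = cuspCount m * cuspCount n := by
  unfold cuspCount
  rw [h.divisors_mul, Finset.sum_map]
  simp only [Function.Embedding.coeFn_mk]
  refine (Finset.sum_attach (m.divisors ×ˢ n.divisors)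
    (fun p : ℕ × ℕ => Nat.totient (Nat.gcd (p.1 * p.2) (m * n / (p.1 * p.2))))).trans ?_
  rw [Finset.sum_product, Finset.sum_mul_sum]
  refine Finset.sum_congr rfl fun d1 hd1 => Finset.sum_congr rfl fun d2 hd2 => ?_
  rw [Nat.mem_divisors] at hd1 hd2
  obtain ⟨e1, he1⟩ := hd1.1
  obtain ⟨e2, he2⟩ := hd2.1
  have hd10 : 0 < d1 := Nat.pos_of_ne_zero (by rintro rfl; rw [zero_mul] at he1; exact hm he1)
  have hd20 : 0 < d2 := Nat.pos_of_ne_zero (by rintro rfl; rw [zero_mul] at he2; exact hn he2)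
  have h1 : m / d1 = e1 := by rw [he1]; exact Nat.mul_div_cancel_left _ hd10
  have h2 : n / d2 = e2 := by rw [he2]; exact Nat.mul_div_cancel_left _ hd20
  have h3 : m * n / (d1 * d2) = e1 * e2 := by
    have : m * n = d1 * d2 * (e1 * e2) := by rw [he1, he2]; ring
    rw [this]; exact Nat.mul_div_cancel_left _ (Nat.mul_pos hd10 hd20)
  have c12 : Nat.Coprime d1 d2 :=
    (h.coprime_dvd_left hd1.1).coprime_dvd_right hd2.1
  have ce : Nat.Coprime e1 e2 :=
    (h.coprime_dvd_left ⟨d1, by rw [he1, mul_comm]⟩).coprime_dvd_right ⟨d2, by rw [he2, mul_comm]⟩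
  have c1 : Nat.Coprime d2 e1 :=
    ((h.coprime_dvd_left ⟨d1, by rw [he1, mul_comm]⟩).coprime_dvd_right hd2.1).symm
  have c2 : Nat.Coprime d1 e2 :=
    (h.coprime_dvd_left hd1.1).coprime_dvd_right ⟨d2, by rw [he2, mul_comm]⟩
  rw [h1, h2, h3, Nat.Coprime.gcd_mul _ ce, Nat.Coprime.gcd_mul_right_cancel _ c1,
    Nat.Coprime.gcd_mul_left_cancel _ c2]
  refine Nat.totient_mul ?_
  exact (c12.coprime_dvd_left (Nat.gcd_dvd_left d1 e1)).coprime_dvd_right (Nat.gcd_dvd_left d2 e2)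

/-- the cusp count of `X₀(q^k)` -/
theorem cuspCount_prime_pow {q : ℕ} (hq : q.Prime) (k : ℕ) :
    cuspCount (q ^ k) = ∑ i ∈ range (k + 1), Nat.totient (q ^ min i (k - i)) := by
  unfold cuspCount
  rw [Nat.sum_divisors_prime_pow hq]
  refine Finset.sum_congr rfl fun i hi => ?_
  rw [Finset.mem_range] at hi
  have hik : i ≤ k := by omega
  rw [Nat.pow_div hik hq.pos]
  congr 1
  rcases le_total i (k - i) with h | h
  · rw [min_eq_left h]; exact Nat.gcd_eq_left (pow_dvd_pow q h)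
  · rw [min_eq_right h]; exact Nat.gcd_eq_right (pow_dvd_pow q h)

/-- the cusp count at level `M q^k` -/
theorem cuspCount_mul_prime_pow {M q : ℕ} (hM : M ≠ 0) (hq : q.Prime) (hqM : ¬ q ∣ M) (k : ℕ) :
    cuspCount (M * q ^ k) =
      (∑ i ∈ range (k + 1), Nat.totient (q ^ min i (k - i))) * cuspCount M := by
  have hcop : Nat.Coprime M (q ^ k) :=
    Nat.Coprime.pow_right k (Nat.Coprime.symm ((Nat.Prime.coprime_iff_not_dvd hq).2 hqM))
  rw [cuspCount_mul_of_coprime hM (pow_ne_zero k hq.ne_zero) hcop, cuspCount_prime_pow hq,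
    mul_comm]

/-- `ψ(M q^{k+1}) = q^k (q + 1) ψ(M)` -/
theorem dedekindPsi_mul_prime_pow {M q : ℕ} (hM : M ≠ 0) (hq : q.Prime) (hqM : ¬ q ∣ M) (k : ℕ) :
    dedekindPsi (M * q ^ (k + 1)) = q ^ k * (q + 1) * dedekindPsi M := by
  induction k with
  | zero =>
    rw [zero_add, pow_one, pow_zero, one_mul]
    exact Fermat.Agent.ProgramR.dedekindPsi_mul_prime_of_not_dvd hM hq hqM
  | succ k ih =>
    have h0 : M * q ^ (k + 1) ≠ 0 := mul_ne_zero hM (pow_ne_zero _ hq.ne_zero)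
    have hdvd : q ∣ M * q ^ (k + 1) := Dvd.dvd.mul_left (dvd_pow_self q (Nat.succ_ne_zero k)) M
    have e : M * q ^ (k + 1 + 1) = M * q ^ (k + 1) * q := by rw [pow_succ, mul_assoc]
    rw [e, Fermat.Agent.ProgramR.dedekindPsi_mul_prime_of_dvd h0 hq hdvd, ih]
    ring

end Fermat.Agent.S45lib.CountK
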