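/-
S45lib / CountK / Genus  (helper5, Project J, block (N))

`q` prime, `q ∤ M`, `M` a level WITHOUT elliptic points (`ν₂(M) = ν₃(M) = 0`).  With
`c_k = cK q k = Σ_i e_i` and `S_k = sK q k = Σ_{i ≠ j} e_j w_{ij}` (`CountK/Weights`):

* `genusFormula_mul_prime_pow` : `g(M q^{k+1}) - 1 = c_{k+1} (g(M) - 1) + ψ(M)/12 · (q^k (q+1) - c_{k+1})`;
* `count_pow_numerics`         : the level-`q` count `g(M q) + 1 ≤ 2 g(M) + s` gives, for every `k ≥ 1`,
        `2 g(M q^k) - 2 ≤ 2 c_k (g(M) - 1) + s S_k`          (in `ℤ`);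
* `count_pow_numerics_eq`      : equality if `g(M q) + 1 = 2 g(M) + s`;
* `count_pow_fin`              : the same in the shape of the field `count` of `MThick.MCtx` with
        `ι = Fin (k + 1)`, `e i = eK q k i`, `w i j = wK q k i j`, `gk i = g(M)`.
-/
import Mathlib
import Fermat.Agent.S45lib.CountK.Cusp
import Fermat.Agent.S45lib.CountK.Weights
import Fermat.Agent.S36lib.Count.NumericsSq

set_option autoImplicit false
set_option linter.style.haveILetI false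

noncomputable section

namespace Fermat.Agent.S45lib.CountK

open ModularCurve Finset

theorem cuspCount_mul_prime_pow' {M q : ℕ} (hM : M ≠ 0) (hq : q.Prime) (hqM : ¬ q ∣ M) (k : ℕ) :
    cuspCount (M * q ^ k) = cK q k * cuspCount M :=
  cuspCount_mul_prime_pow hM hq hqM k

theorem cK_one (q : ℕ) : cK q 1 = 2 := by
  unfold cK eK
  rw [Finset.sum_range_succ, Finset.sum_range_one]
  simp

/-- **the genus formula at level `M q^{k+1}`**, `M` without elliptic points -/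
theorem genusFormula_mul_prime_pow {M q : ℕ} [NeZero M] (hq : q.Prime) (hqM : ¬ q ∣ M)
    (h2 : nuTwo M = 0) (h3 : nuThree M = 0) (k : ℕ) :
    genusFormula (M * q ^ (k + 1)) - 1 =
      (cK q (k + 1) : ℚ) * (genusFormula M - 1) +
        (dedekindPsi M : ℚ) / 12 * ((q : ℚ) ^ k * ((q : ℚ) + 1) - (cK q (k + 1) : ℚ)) := by
  have hM : M ≠ 0 := NeZero.ne M
  have hdvd : M ∣ M * q ^ (k + 1) := Dvd.intro _ rfl
  have h2' := S36lib.Count.nuTwo_eq_zero_of_dvd hdvd h2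
  have h3' := S36lib.Count.nuThree_eq_zero_of_dvd hdvd h3
  unfold genusFormula
  rw [dedekindPsi_mul_prime_pow hM hq hqM, cuspCount_mul_prime_pow' hM hq hqM, h2, h3, h2', h3']
  push_cast
  ring

/-- the identity `(q - 1) S_k + 2 c_k = 2 q^{k-1} (q + 1)` over `ℚ` -/
theorem sK_identity_rat {q k : ℕ} (hq : q.Prime) (hk : 1 ≤ k) :
    ((q : ℚ) - 1) * (sK q k : ℚ) + 2 * (cK q k : ℚ) = 2 * ((q : ℚ) ^ (k - 1) * ((q : ℚ) + 1)) := by
  have h := sK_identity hq hk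
  have h1 : ((q - 1 : ℕ) : ℚ) = (q : ℚ) - 1 := by
    rw [Nat.cast_sub hq.one_lt.le, Nat.cast_one]
  have h' : (((q - 1) * sK q k + 2 * cK q k : ℕ) : ℚ) = ((2 * (q ^ (k - 1) * (q + 1)) : ℕ) : ℚ) := by
    rw [h]
  push_cast at h'
  rw [h1] at h'
  exact h'

/-- the core computation over `ℚ` -/
theorem count_pow_rat {M q : ℕ} [NeZero M] (hq : q.Prime) (hqM : ¬ q ∣ M)
    (h2 : nuTwo M = 0) (h3 : nuThree M = 0) {k : ℕ} (hk : 1 ≤ k) :
    2 * (genusFormula (M * q ^ k) - 1) =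
      2 * ((cK q k : ℚ) * (genusFormula M - 1)) +
        (genusFormula (M * q) + 1 - 2 * genusFormula M) * (sK q k : ℚ) := by
  obtain ⟨k', rfl⟩ : ∃ k', k = k' + 1 := ⟨k - 1, by omega⟩
  have hk' := genusFormula_mul_prime_pow hq hqM h2 h3 k'
  have h1 := genusFormula_mul_prime_pow hq hqM h2 h3 0
  rw [zero_add, pow_one, pow_zero, one_mul, cK_one] at h1
  have hS := sK_identity_rat hq hk
  rw [Nat.add_sub_cancel] at hS
  push_cast at h1
  have hs : genusFormula (M * q) + 1 - 2 * genusFormula M =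
      (dedekindPsi M : ℚ) / 12 * ((q : ℚ) - 1) := by linarith
  rw [hs]
  have hS' : (dedekindPsi M : ℚ) / 12 * (((q : ℚ) - 1) * (sK q (k' + 1) : ℚ)) =
      (dedekindPsi M : ℚ) / 12 *
        (2 * ((q : ℚ) ^ k' * ((q : ℚ) + 1)) - 2 * (cK q (k' + 1) : ℚ)) := by
    rw [← hS]; ring
  linarith

/-- **the arithmetic of COUNT at level `M q^k`** -/
theorem count_pow_numerics {M q : ℕ} [NeZero M] (hq : q.Prime) (hqM : ¬ q ∣ M)
    (h2 : nuTwo M = 0) (h3 : nuThree M = 0) {k : ℕ} (hk : 1 ≤ k) {gk g1 g0 s : ℕ}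
    (hgk : (gk : ℚ) = genusFormula (M * q ^ k)) (hg1 : (g1 : ℚ) = genusFormula (M * q))
    (hg0 : (g0 : ℚ) = genusFormula M) (hcount : g1 + 1 ≤ 2 * g0 + s) :
    2 * (gk : ℤ) - 2 ≤ 2 * ((cK q k : ℤ) * ((g0 : ℤ) - 1)) + (s : ℤ) * (sK q k : ℤ) := by
  have h := count_pow_rat hq hqM h2 h3 hk
  rw [← hgk, ← hg1, ← hg0] at h
  have hc : (g1 : ℚ) + 1 - 2 * (g0 : ℚ) ≤ (s : ℚ) := by
    have : ((g1 + 1 : ℕ) : ℚ) ≤ ((2 * g0 + s : ℕ) : ℚ) := by exact_mod_cast hcount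
    push_cast at this
    linarith
  have hS : (0 : ℚ) ≤ (sK q k : ℚ) := Nat.cast_nonneg _
  have hmul := mul_le_mul_of_nonneg_right hc hS
  have goal : ((2 * (gk : ℤ) - 2 : ℤ) : ℚ) ≤
      ((2 * ((cK q k : ℤ) * ((g0 : ℤ) - 1)) + (s : ℤ) * (sK q k : ℤ) : ℤ) : ℚ) := by
    push_cast
    linarith
  exact_mod_cast goal

/-- the exact form -/
theorem count_pow_numerics_eq {M q : ℕ} [NeZero M] (hq : q.Prime) (hqM : ¬ q ∣ M)
    (h2 : nuTwo M = 0) (h3 : nuThree M = 0) {k : ℕ} (hk : 1 ≤ k) {gk g1 g0 s : ℕ}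
    (hgk : (gk : ℚ) = genusFormula (M * q ^ k)) (hg1 : (g1 : ℚ) = genusFormula (M * q))
    (hg0 : (g0 : ℚ) = genusFormula M) (hcount : g1 + 1 = 2 * g0 + s) :
    2 * (gk : ℤ) - 2 = 2 * ((cK q k : ℤ) * ((g0 : ℤ) - 1)) + (s : ℤ) * (sK q k : ℤ) := by
  have h := count_pow_rat hq hqM h2 h3 hk
  rw [← hgk, ← hg1, ← hg0] at h
  have hc : (g1 : ℚ) + 1 - 2 * (g0 : ℚ) = (s : ℚ) := by
    have : ((g1 + 1 : ℕ) : ℚ) = ((2 * g0 + s : ℕ) : ℚ) := by exact_mod_cast hcount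
    push_cast at this
    linarith
  rw [hc] at h
  have goal : ((2 * (gk : ℤ) - 2 : ℤ) : ℚ) =
      ((2 * ((cK q k : ℤ) * ((g0 : ℤ) - 1)) + (s : ℤ) * (sK q k : ℤ) : ℤ) : ℚ) := by
    push_cast
    linarith
  exact_mod_cast goal

/-! ### the `Fin (k + 1)`-indexed shape -/

theorem sum_fin_eK (q k : ℕ) (x : ℤ) :
    ∑ i : Fin (k + 1), (eK q k i : ℤ) * x = (cK q k : ℤ) * x := by
  rw [← Finset.sum_mul, Fin.sum_univ_eq_sum_range (fun i => (eK q k i : ℤ)) (k + 1)]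
  unfold cK
  rw [Nat.cast_sum]

theorem sum_fin_off_diag (n : ℕ) (f : ℕ → ℕ → ℤ) :
    ∑ i : Fin n, ∑ j : Fin n, (if i = j then 0 else f i j) =
      ∑ i ∈ range n, ∑ j ∈ (range n).erase i, f i j := by
  rw [← Fin.sum_univ_eq_sum_range (fun i => ∑ j ∈ (range n).erase i, f i j) n]
  refine Finset.sum_congr rfl fun i _ => ?_
  have h1 : ∑ j : Fin n, (if i = j then 0 else f i j) =
      ∑ j ∈ range n, (if (i : ℕ) = j then 0 else f i j) := by
    rw [← Fin.sum_univ_eq_sum_range (fun j => if (i : ℕ) = j then 0 else f i j) n]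
    refine Finset.sum_congr rfl fun j _ => ?_
    by_cases h : i = j
    · rw [if_pos h, if_pos (congrArg Fin.val h)]
    · rw [if_neg h, if_neg (fun h' => h (Fin.ext h'))]
  rw [h1, ← Finset.sum_erase (range n) (a := (i : ℕ)) (by rw [if_pos rfl])]
  refine Finset.sum_congr rfl fun j hj => ?_
  rw [Finset.mem_erase] at hj
  rw [if_neg (fun h => hj.1 h.symm)]

theorem sum_fin_sK (q k : ℕ) :
    ∑ i : Fin (k + 1), ∑ j : Fin (k + 1),
      (if i = j then 0 else (eK q k j : ℤ) * (wK q k i j : ℤ)) = (sK q k : ℤ) := by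
  rw [sum_fin_off_diag (k + 1) (fun i j => (eK q k j : ℤ) * (wK q k i j : ℤ))]
  unfold sK rowK
  push_cast
  rfl

/-- **COUNT at level `M q^k` in the shape of `MThick.MCtx.count`** (`ι = Fin (k + 1)`,
`e i = eK q k i`, `w i j = wK q k i j`, `gk i = g0`). -/
theorem count_pow_fin {M q : ℕ} [NeZero M] (hq : q.Prime) (hqM : ¬ q ∣ M)
    (h2 : nuTwo M = 0) (h3 : nuThree M = 0) {k : ℕ} (hk : 1 ≤ k) {gk g1 g0 s : ℕ}
    (hgk : (gk : ℚ) = genusFormula (M * q ^ k)) (hg1 : (g1 : ℚ) = genusFormula (M * q))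
    (hg0 : (g0 : ℚ) = genusFormula M) (hcount : g1 + 1 ≤ 2 * g0 + s) :
    2 * (gk : ℤ) - 2 ≤ 2 * ∑ i : Fin (k + 1), (eK q k i : ℤ) * ((g0 : ℤ) - 1) +
      (s : ℤ) * ∑ i : Fin (k + 1), ∑ j : Fin (k + 1),
        if i = j then 0 else (eK q k j : ℤ) * (wK q k i j : ℤ) := by
  rw [sum_fin_eK, sum_fin_sK]
  exact count_pow_numerics hq hqM h2 h3 hk hgk hg1 hg0 hcount

end Fermat.Agent.S45lib.CountK
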